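import Fermat.Agent.LT.DihedralTheta.Target.Local
import Fermat.Agent.LT.DihedralTheta.GlobalHecke
import Fermat.Agent.LT.DihedralTheta.TypeEUnram
import Fermat.Agent.LT.DihedralTheta.TypeETame
import Fermat.Agent.LT.DihedralTheta.ConverseForm
import Fermat.Agent.LT.DihedralTheta.ConverseHecke
import Fermat.Agent.LT.CuspType.Fixed

/-!
# The global coefficient function carries the type

At a place of residue cardinality three whose vector is a residue model the local Whittaker
function satisfies `IsTypeAt`; if it does at every place of the type, the function defined by the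
coefficients is fixed by the idempotent of the type.
-/

set_option autoImplicit false

noncomputable section

open IsDedekindDomain NumberField WithZero
open scoped NumberField
open Fermat.Agent.LT.Places Fermat.Agent.LT.CuspType

namespace Fermat.Agent.LT.DihedralTheta

variable {F : Type*} [Field F] [NumberField F]

/-- The residue of the completion is the reduction of the type. -/
theorem res_toPlace (S : ThreeSet F) (v : S.places) (x : integralAdele F) :
    (placeBase (v : FinPlace F)).res (toPlace (v : FinPlace F) (x : FinAdele F)) = red S v x := by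
  have hq : (placeBase (v : FinPlace F)).q = 3 := S.card_residue v v.2
  set K := placeBase (v : FinPlace F)
  set y := toPlace (v : FinPlace F) (x : FinAdele F)
  have hy : y ∈ K.ball 0 := mem_placeBall_zero.mpr (placeVal_le_one _ x.2)
  have h1 : Valued.v (y - ((((K.res y).val : ℕ)) : (v : FinPlace F).adicCompletion F)) < 1 := by
    refine lt_of_le_of_lt (mem_placeBall.mp (LocalBase.res_spec hq hy)) ?_
    rw [← exp_zero, exp_lt_exp]
    norm_num
  have h2 : red S v (x - (((K.res y).val : ℕ) : integralAdele F)) = 0 := by
    rw [red_eq_zero_iff, placeVal]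
    push_cast
    rw [map_sub, map_natCast]
    exact h1
  rw [map_sub, map_natCast, ZMod.natCast_zmod_val, sub_eq_zero] at h2
  exact h2.symm

/-- The residue matrix of a component is the reduction of the type. -/
theorem resMat_glPlace (S : ThreeSet F) (v : S.places) (k : intSub F) :
    (placeBase (v : FinPlace F)).resMat (glPlace (v : FinPlace F) k.1) = (redGL S v k).val := by
  ext i j
  rw [redGL_apply, ← res_toPlace]
  rfl

/-- The unramified table is supported at nonzero norms. -/
lemma tableU_norm_ne (α c : ℂ) {r : ZMod 3 × ZMod 3} (h : tableU α c r ≠ 0) : normU r ≠ 0 := by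
  have key : ∀ r : ZMod 3 × ZMod 3, normU r = 0 → r = (0, 0) := by decide
  intro h0
  exact h (by simp [key r h0, tableU])

/-- The ramified table is supported at nonzero norms. -/
lemma tableR_norm_ne (α : ℂ) {r : ZMod 3 × ZMod 3} (h : tableR α r ≠ 0) : normR r ≠ 0 := by
  intro h0
  have h1 : r.1 = 0 := by simpa [normR] using h0
  exact h (by simp +decide [tableR, sgnThree, h1])

namespace ThetaData

variable (D : ThetaData F)

/-- The local Whittaker function at `v` lies in the type. -/
def IsTypeAt (S : ThreeSet F) (ε : Fin 2) (v : S.places) : Prop :=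
  ∀ g ξ, ∃ H : Equiv.Perm (Fin 3) → ℂ, ∑ σ, coef ε σ * H σ = 3 * H 1 ∧
    ∀ l ∈ awaySub S, (D.place v).vec.whit (D.place v).psi (g * glPlace (v : FinPlace F) l) ξ =
      H (placePerm S v l)

/-- A residue model gives the type. -/
theorem isTypeAt_of_model {S : ThreeSet F} {ε : Fin 2} {v : S.places}
    {η : (v : FinPlace F).adicCompletion F → ℂ} (M : ResModel (D.place v).form η)
    (hN : ∀ r, M.f r ≠ 0 → M.N r ≠ 0) (hvec : (D.place v).vec = M.localVec ε) :
    D.IsTypeAt S ε v := by
  intro g ξ
  have hG := (D.place v).good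
  rw [hvec] at hG
  obtain ⟨H, h1, h2⟩ := M.exists_type_fun hN ε hG g ξ
  refine ⟨H, h1, fun l hl => ?_⟩
  rw [hvec]
  have hk : glPlace (v : FinPlace F) l ∈ (placeBase (v : FinPlace F)).intGL := by
    rw [intGL_eq_intGroup]
    exact Places.intGL_iff.1 hl.1 _
  rw [placePerm_int S v ⟨l, hl.1⟩]
  exact h2 _ hk _ (resMat_glPlace S v ⟨l, hl.1⟩)

variable {S : ThreeSet F} {U : Level F} {ε : Fin 2}

/-- The coefficient function is fixed by the idempotent of the type. -/
theorem sum_cuspVal_coeff (hT : IsTypeLevel S U) (hU : D.IsLevel U)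
    (hS : ∀ v : S.places, D.IsTypeAt S ε v) (g : GLFin F) (ξ : F) :
    ∑ q : TypeQuot S U, cuspVal S U ε (rep q) * D.coeff (g * rep q) ξ = D.coeff g ξ := by
  classical
  rcases eq_or_ne ξ 0 with rfl | hξ
  · simp
  choose H hH hHl using fun v : S.places => hS v (glPlace (v : FinPlace F) g) (cmp (v : FinPlace F) ξ)
  set T : Finset (FinPlace F) := S.places ∪ (D.finite_locWhit_ne_one g hξ).toFinset
  set C : ℂ := ∏ v ∈ T \ S.places, D.locWhit v g ξ
  have key : ∀ l ∈ awaySub S, D.coeff (g * l) ξ = C * ∏ v : S.places, H v (placePerm S v l) := by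
    intro l hl
    have hoff : ∀ v, v ∉ S.places → D.locWhit v (g * l) ξ = D.locWhit v g ξ := fun v hv => by
      rw [locWhit, locWhit, map_mul, hl.2 v hv, mul_one]
    have hsub : (Function.mulSupport fun v => D.locWhit v (g * l) ξ) ⊆ ↑T := fun v hv => by
      by_contra h
      simp only [T, Finset.coe_union, Set.mem_union, Set.Finite.coe_toFinset, not_or,
        Finset.mem_coe, Function.mem_mulSupport, not_not] at h
      exact hv ((hoff v h.1).trans h.2)
    rw [D.coeff_of_ne hξ, finprod_eq_prod_of_mulSupport_subset _ hsub,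
      ← Finset.prod_sdiff (Finset.subset_union_left (s₂ := (D.finite_locWhit_ne_one g hξ).toFinset)),
      ← Finset.prod_coe_sort S.places]
    congr 1
    · exact Finset.prod_congr rfl fun v hv => hoff v (Finset.mem_sdiff.mp hv).2
    · refine Finset.prod_congr rfl fun v _ => ?_
      rw [locWhit, map_mul, hHl v l hl]
  have hterm : ∀ q : TypeQuot S U, cuspVal S U ε (rep q) * D.coeff (g * rep q) ξ =
      typeConst S U * C *
        ∏ v : S.places, coef ε (permVec S (rep q) v) * H v (permVec S (rep q) v) := by
    intro q
    obtain ⟨l, hl, u, hu, e⟩ := (mem_typeSub hT).1 (rep_mem q)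
    rw [cuspVal_of_mem ε (rep_mem q), coefVec, Finset.prod_mul_distrib]
    have ep : permVec S (rep q) = permVec S l := by
      rw [e, permVec_mul (intSub_le_maxSub hl.1) (level_le_maxSub U hu), permVec_level hT hu, mul_one]
    rw [ep]
    have eA : D.coeff (g * rep q) ξ = C * ∏ v : S.places, H v (permVec S l v) := by
      rw [e, ← mul_assoc, D.coeff_right hU _ hu]
      exact key l hl
    rw [eA]
    ring
  have h1 : D.coeff g ξ = C * ∏ v : S.places, H v 1 := by
    have h := key 1 (one_mem _)
    rw [mul_one] at h
    simpa only [placePerm_one] using h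
  rw [Finset.sum_congr rfl fun q _ => hterm q, ← Finset.mul_sum,
    sum_permVec hT fun y => ∏ v : S.places, coef ε (y v) * H v (y v),
    ← Fintype.prod_sum fun (v : S.places) σ => coef ε σ * H v σ, Finset.prod_congr rfl fun v _ => hH v,
    Finset.prod_mul_distrib, Finset.prod_const, Finset.card_univ, Fintype.card_coe, h1, typeConst]
  have hQ : (Nat.card (TypeQuot S U) : ℂ) ≠ 0 :=
    Nat.cast_ne_zero.2 (Nat.card_pos (α := TypeQuot S U)).ne'
  have h6 : (6 : ℂ) ^ S.places.card = 2 ^ S.places.card * 3 ^ S.places.card := by
    rw [← mul_pow]; norm_num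
  have h2 : (2 : ℂ) ^ S.places.card ≠ 0 := pow_ne_zero _ two_ne_zero
  have h3 : (3 : ℂ) ^ S.places.card ≠ 0 := pow_ne_zero _ three_ne_zero
  rw [h6]
  field_simp

/-- The coefficient function is invariant under the local group fixing the vector. -/
theorem coeff_localGL (v : FinPlace F) {k : GL (Fin 2) (v.adicCompletion F)}
    (hk : k ∈ (D.place v).vec.U) (g : GLFin F) : D.coeff (g * localGL v k) = D.coeff g := by
  funext ξ
  have h := D.coeff_hecke_of_local v (fun _ : Unit => k) (c := 1) (fun g' ξ' => by
    rw [one_mul, Fintype.sum_unique]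
    exact LocalVec.whit_right _ hk _) g ξ
  rwa [one_mul, Fintype.sum_unique] at h

end ThetaData

variable [NumberField.IsTotallyComplex F] {U : Level F} {A : GLFin F → F → ℂ}

/-- A linear relation between translates of the coefficients gives it for the functions. -/
theorem IsWhittakerCoeff.sum_phiExp_weight (hA : IsWhittakerCoeff U A) {ι : Type*} [Fintype ι]
    (c : ι → ℂ) (s : ι → GLFin F) (g : GLFin F) (h : ∀ ξ, ∑ i, c i * A (g * s i) ξ = A g ξ)
    (P : InfinitePlace F → H3) :
    ∑ i, c i * phiExp U A (P, ((g * s i : GLFin F) : GLFin F ⧸ U.toSubgroup))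
      = phiExp U A (P, (g : GLFin F ⧸ U.toSubgroup)) := by
  refine (hasSum_sum fun i _ => (hA.hasSum_phiExp_mk P (g * s i)).mul_left (c i)).unique
    ((hA.hasSum_phiExp_mk P g).congr_fun fun ξ => ?_)
  simp only [phiTerm]
  rw [← h, Finset.sum_mul, Finset.sum_mul]
  exact Finset.sum_congr rfl fun i _ => by ring

namespace ThetaData

variable (D : ThetaData F) {S : ThreeSet F} {ε : Fin 2}

/-- **The function of the coefficients is fixed by the idempotent of the type.** -/
theorem cuspFn_op_phiExp (hT : IsTypeLevel S U) (hU : D.IsLevel U)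
    (hS : ∀ v : S.places, D.IsTypeAt S ε v) :
    (cuspFn hT ε).op (phiExp U D.coeff) = phiExp U D.coeff := by
  funext ⟨P, c⟩
  refine QuotientGroup.induction_on c fun g => ?_
  rw [cuspFn_op]
  exact (D.isWhittakerCoeff hU).sum_phiExp_weight _ _ g (D.sum_cuspVal_coeff hT hU hS g) P

/-- The function of the coefficients is invariant where the vector is spherical. -/
theorem phiExp_localGL (hU : D.IsLevel U) (v : FinPlace F)
    {k : GL (Fin 2) (v.adicCompletion F)} (hk : k ∈ (D.place v).vec.U)
    (P : InfinitePlace F → H3) (x : GLFin F) :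
    phiExp U D.coeff (P, QuotientGroup.mk (x * localGL v k)) =
      phiExp U D.coeff (P, QuotientGroup.mk x) := by
  have h := (D.isWhittakerCoeff hU).sum_phiExp_weight (fun _ : Unit => 1) (fun _ => localGL v k) x
    (fun ξ => by rw [Fintype.sum_unique, one_mul, D.coeff_localGL v hk]) P
  rwa [Fintype.sum_unique, one_mul] at h

end ThetaData

end Fermat.Agent.LT.DihedralTheta

end
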