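import Fermat.Agent.LT.DihedralTheta.Target.Eigen
import Fermat.Agent.LT.DihedralTheta.Target.Type
import Fermat.Agent.LT.Rigidity.Fibre
import Fermat.Agent.LT.Rigidity.TameTrace.Operators

/-!
# The target of the descent: the dihedral form in the fibre

From a theta datum compatible with the level, its Weyl invariance, residue models at the places of
the type and the Hecke eigenvalues at the good places, the function of the coefficients is a
nonzero function of the fibre, fixed by the idempotent of the type and killed by the tame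
projections.
-/

set_option autoImplicit false

noncomputable section

open IsDedekindDomain NumberField WithZero
open scoped NumberField
open Fermat.Agent.LT.Places Fermat.Agent.LT.CuspType

namespace Fermat.Agent.LT.DihedralTheta

variable {F : Type*} [Field F] [NumberField F]

/-- The local datum at a good place has the eigenvalue `c`. -/
def HasLocalEigen (D : ThetaData F) (v : FinPlace F) (c : ℂ) : Prop :=
  (∃ (η : v.adicCompletion F → ℂ) (ε : ℂ)
      (h : (placeForm v _ _ (D.place v).trace_le (D.place v).norm_le).IsUnram η ε),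
      (D.place v).vec = LocalVec.spherical _ h) ∧
    (placeForm v _ _ (D.place v).trace_le (D.place v).norm_le).IsUnramChar (D.place v).psi ∧
    ∃ l : ℂ, c = (Real.sqrt (Nat.card (Residue v)) : ℂ) * l ∧
    ∀ n : ℤ, n ≠ 0 → (D.place v).form.sphSum (D.place v).psi n =
      l * (D.place v).form.sphSum (D.place v).psi (n - 1) -
        (D.place v).form.sphSum (D.place v).psi (n - 2)

/-- What the dihedral datum supplies for the target. -/
structure IsTargetData (D : ThetaData F) (σ : F ≃+* F) {I : Ideal (𝓞 F)}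
    (hI : ∃ N : ℕ, 0 < N ∧ (N : 𝓞 F) ∈ I) (Q R : Finset (FinPlace F)) (lam : FinPlace F → ℂ)
    (S : ThreeSet F) (ε : Fin 2) : Prop where
  level : D.IsLevel (Level.ofIdeal F I hI)
  weyl : ∃ κ : ℂ, ∀ y, phiExp (Level.ofIdeal F I hI) D.coeff (weylElt F • y) =
    κ * phiExp (Level.ofIdeal F I hI) D.coeff y
  le_places : ∀ v : FinPlace F, I ≤ v.asIdeal → v ∈ Q ∨ v ∈ R
  three_mem : ∀ v ∈ R, v ∈ S.places
  three_le : ∀ v ∈ S.places, I ≤ v.asIdeal
  type : ∀ v : S.places, D.IsTypeAt S ε v
  spherical : ∀ v ∈ Q, intGroup v ≤ (D.place v).vec.U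
  good : ∀ v, v ∉ Q → v ∉ R → placeEquiv σ v ≠ v → HasLocalEigen D v (lam v)
  nonvanish : ∀ v, ¬ (D.place v).IsStd →
    ∃ g ξ, ξ ≠ 0 ∧ (D.place v).vec.whit (D.place v).psi g ξ ≠ 0

namespace ThetaData

variable (D : ThetaData F)

/-- Nonvanishing at one may be read off anywhere. -/
theorem exists_whit_one_ne_zero (v : FinPlace F) {g : GL (Fin 2) (v.adicCompletion F)}
    {ξ : v.adicCompletion F} (hξ : ξ ≠ 0) (h : (D.place v).vec.whit (D.place v).psi g ξ ≠ 0) :
    ∃ g', (D.place v).vec.whit (D.place v).psi g' 1 ≠ 0 := by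
  refine ⟨bmat ξ 0 1 hξ one_ne_zero * g, ?_⟩
  rw [LocalVec.whit_borel (D.place v).good]
  simpa using h

end ThetaData

variable [NumberField.IsTotallyComplex F] {D : ThetaData F} {σ : F ≃+* F} {I : Ideal (𝓞 F)}
  {hI : ∃ N : ℕ, 0 < N ∧ (N : 𝓞 F) ∈ I} {Q R : Finset (FinPlace F)} {lam : FinPlace F → ℂ}
  {S : ThreeSet F} {ε : Fin 2}

namespace IsTargetData

variable (h : IsTargetData D σ hI Q R lam S ε)

include h

omit [NumberField.IsTotallyComplex F] in
/-- The level of the ideal is a level for the type. -/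
theorem isTypeLevel : IsTypeLevel S (Level.ofIdeal F I hI) := isTypeLevel_ofIdeal hI h.three_le

/-- The function is fixed by the idempotent of the type. -/
theorem fixed (hT : IsTypeLevel S (Level.ofIdeal F I hI)) :
    (cuspFn hT ε).op (phiExp (Level.ofIdeal F I hI) D.coeff) =
      phiExp (Level.ofIdeal F I hI) D.coeff :=
  D.cuspFn_op_phiExp hT h.level h.type

/-- **The function lies in the fibre.** -/
theorem inFibre :
    Rigidity.InFibre σ Q R lam ((-1) ^ (ε : ℕ)) (phiExp (Level.ofIdeal F I hI) D.coeff) := by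
  have hA := D.isWhittakerCoeff h.level
  refine ⟨hA.isSphericalCuspForm h.weyl, fun v hQ hR hσ y => ?_,
    fun w hw => isThreeFixed_of_fixed h.isTypeLevel ε (h.three_mem w hw) (h.fixed h.isTypeLevel)⟩
  obtain ⟨hsph, -, l, hl, hrec⟩ := h.good v hQ hR hσ
  have hgood : IsGoodAt (Level.ofIdeal F I hI) v :=
    isGoodAt_ofIdeal hI fun hle => (h.le_places v hle).elim hQ hR
  let _ := Fintype.ofFinite (Residue v)
  rw [Places.doubleOp_eq hgood (Rigidity.heckeSet_eq v), hl]
  exact hA.heckeAt_eq hgood (D.coeff_hecke_spherical hsph hrec) y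

/-- The function is not zero. -/
theorem exists_ne_zero : ∃ y, phiExp (Level.ofIdeal F I hI) D.coeff y ≠ 0 :=
  (D.isWhittakerCoeff h.level).exists_ne_zero (D.exists_coeff_ne_zero fun v hv => by
    obtain ⟨g, ξ, hξ, hne⟩ := h.nonvanish v hv
    exact D.exists_whit_one_ne_zero v hξ hne)

/-- The tame projections kill the function. -/
theorem tameProj_eq_zero {w : FinPlace F} (hw : w ∈ Q)
    (hT : Rigidity.Tame.IsTamePlace σ (Level.ofIdeal F I hI) w) {χ : ℂ} (hχ : χ ^ 3 = 1)
    (hχ1 : χ ≠ 1) : (hT.tameProj hχ).op (phiExp (Level.ofIdeal F I hI) D.coeff) = 0 :=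
  hT.proj_eq_zero_of_spherical hχ hχ1 fun _ hk P x =>
    D.phiExp_localGL h.level w (h.spherical w hw hk) P x

end IsTargetData

/-! ### The cubic field -/

section

open Fermat.Agent.GaloisBasics GaloisData
open Fermat.Agent.LT.Final (GF3)

variable {ρ : GalQ →* GF3} [FiniteDimensional ℚ (cubicField ρ)]
  (Ψ : GF3 →* GL (Fin 2) (ℤ√(-2))) (ι : ℤ√(-2) →+* ℂ)

/-- **The target on the cubic field**: eigenvalues at every unramified prime and a nonzero function
of the fibre fixed by the idempotent of the type. -/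
theorem exists_target (hρ : IsSupersingularRep ρ) {D : ThetaData (cubicField ρ)}
    [NumberField.IsTotallyComplex (cubicField ρ)] {I : Ideal (𝓞 (cubicField ρ))}
    {hI : ∃ N : ℕ, 0 < N ∧ (N : 𝓞 (cubicField ρ)) ∈ I} {Q R : Finset (FinPlace (cubicField ρ))}
    {S : ThreeSet (cubicField ρ)} {ε : Fin 2}
    (h : IsTargetData D (cubicAut hρ) hI Q R (fun v => thetaLam ρ Ψ ι v.asIdeal) S ε) :
    ∃ lam : Ideal (𝓞 (cubicField ρ)) → ℂ, Descent.HasThetaEigenvalues hρ Ψ ι ∅ lam ∧
      ∃ φ₀ : Y (Level.ofIdeal (cubicField ρ) I hI) → ℂ,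
        Rigidity.InFibre (cubicAut hρ) Q R (fun v => lam v.asIdeal) ((-1) ^ (ε : ℕ)) φ₀ ∧
        (∀ hT : IsTypeLevel S (Level.ofIdeal (cubicField ρ) I hI),
          (cuspFn hT ε).op φ₀ = φ₀) ∧
        (∀ w ∈ Q, ∀ (hT : Rigidity.Tame.IsTamePlace (cubicAut hρ)
            (Level.ofIdeal (cubicField ρ) I hI) w) (χ : ℂ) (hχ : χ ^ 3 = 1), χ ≠ 1 →
          (hT.tameProj hχ).op φ₀ = 0) ∧
        ∃ y, φ₀ y ≠ 0 :=
  ⟨_, hasThetaEigenvalues_thetaLam hρ Ψ ι, _, h.inFibre, h.fixed,
    fun _ hw hT _ hχ hχ1 => h.tameProj_eq_zero hw hT hχ hχ1, h.exists_ne_zero⟩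

end

end Fermat.Agent.LT.DihedralTheta

end
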