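import Fermat.Agent.LT.Descent.Assembly
import Fermat.Agent.LT.GaloisData.Frobenius

/-!
# The eigenvalues of the dihedral form

`thetaLam ρ Ψ ι P` is the square root of the norm times the trace of the lift at a Frobenius
element over `P`.  It has the eigenvalues asked for by the descent at every unramified prime and
is stable under the cubic automorphism there.
-/

set_option autoImplicit false

noncomputable section

open scoped NumberField Pointwise
open Fermat.Agent.GaloisBasics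
open Fermat.Agent.LT.Final (GF3)

namespace Fermat.Agent.LT.DihedralTheta

open GaloisData

variable {ρ : GalQ →* GF3}

/-- `ρ` kills inertia at every place over `P`. -/
def IsUnramAt (ρ : GalQ →* GF3) (K : IntermediateField ℚ Qbar) (P : Ideal (𝓞 K)) : Prop :=
  ∀ (p : ℕ) (A : ValuationSubring Qbar), p.Prime → A.LiesOverPrime p → intIdeal K A = P →
    ∀ τ ∈ A.inertiaSubgroupIn ℚ, ρ τ = 1

/-- Unramified at one place gives unramified at the prime below it. -/
theorem isUnramAt_intIdeal (K : IntermediateField ℚ Qbar) {A : ValuationSubring Qbar} {p : ℕ}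
    (hp : p.Prime) (hA : A.LiesOverPrime p) (hI : ∀ τ ∈ A.inertiaSubgroupIn ℚ, ρ τ = 1) :
    IsUnramAt ρ K (intIdeal K A) := by
  intro q B hq hB hBA
  have hpq : q = p := by
    have h : (q : 𝓞 K) ∈ intIdeal K A := hBA ▸ natCast_mem_intIdeal K hB
    have h1 : ((q : ℕ) : Qbar) ∈ A.nonunits := by simpa using (mem_intIdeal K).mp h
    exact ((Nat.prime_dvd_prime_iff_eq hp hq).mp ((natCast_mem_nonunits_iff hA hp q).mp h1)).symm
  subst hpq
  exact map_inertia_eq_one_of_one_place ρ hA hp hI hB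

open Classical in
/-- The eigenvalue of the dihedral form at `P`. -/
def thetaLam (ρ : GalQ →* GF3) [FiniteDimensional ℚ (cubicField ρ)]
    (Ψ : GF3 →* GL (Fin 2) (ℤ√(-2))) (ι : ℤ√(-2) →+* ℂ) (P : Ideal (𝓞 (cubicField ρ))) : ℂ :=
  if h : ∃ g, IsFrobOver (cubicField ρ) P g then
    (Real.sqrt (Ideal.absNorm P) : ℂ) * ι (liftTrace Ψ (ρ h.choose))
  else 0

section

variable [FiniteDimensional ℚ (cubicField ρ)] (Ψ : GF3 →* GL (Fin 2) (ℤ√(-2)))
  (ι : ℤ√(-2) →+* ℂ)

/-- The value at any Frobenius element. -/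
theorem thetaLam_eq {P : Ideal (𝓞 (cubicField ρ))} {g : GalQ}
    (h : IsFrobOver (cubicField ρ) P g) (hI : IsUnramAt ρ (cubicField ρ) P) :
    thetaLam ρ Ψ ι P = (Real.sqrt (Ideal.absNorm P) : ℂ) * ι (liftTrace Ψ (ρ g)) := by
  have he : ∃ g, IsFrobOver (cubicField ρ) P g := ⟨g, h⟩
  rw [thetaLam, dif_pos he, h.liftTrace_eq Ψ he.choose_spec hI]

end

/-- **The eigenvalues of the descent, at every unramified prime.** -/
theorem hasThetaEigenvalues_thetaLam (hρ : IsSupersingularRep ρ)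
    [FiniteDimensional ℚ (cubicField ρ)] (Ψ : GF3 →* GL (Fin 2) (ℤ√(-2))) (ι : ℤ√(-2) →+* ℂ) :
    Descent.HasThetaEigenvalues hρ Ψ ι ∅ (thetaLam ρ Ψ ι) := by
  intro p hp _ A hA hI σ hσ f hN _
  rw [thetaLam_eq Ψ ι ⟨p, f, A, σ, hp, hA, hσ, rfl, hN, rfl⟩
    (isUnramAt_intIdeal _ hp hA hI), hN, map_pow]
  congr 1
  rw [← Complex.ofReal_pow]
  congr 1
  rw [Nat.cast_pow, Real.sqrt_eq_iff_eq_sq (by positivity) (by positivity), ← pow_mul, mul_comm,
    pow_mul, Real.sq_sqrt (Nat.cast_nonneg _)]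

end Fermat.Agent.LT.DihedralTheta

end
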