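import Fermat.Agent.LT.DihedralTheta.Data
import Fermat.Agent.LT.DihedralTheta.TypeE

/-!
# Nonvanishing of the Whittaker function of a residue model

If the lattice function at the identity lives on the units of the quadratic algebra, equivariance
makes the integrand of the Whittaker function constant there.
-/

set_option autoImplicit false

noncomputable section

open NumberField AddSubgroup
open Fermat.Agent.LT.Places

namespace Fermat.Agent.LT.DihedralTheta

variable {F : Type*} [Field F] [NumberField F]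

/-- A lattice function on the units gives a nonzero Whittaker function. -/
theorem LocalVec.exists_whit_ne_zero_of_units {E : Type*} [Field E] {K : LocalForm E}
    {T : LocalVec K} {ψ : E × E → ℂ} {ξ : E} (hne : T.φ 1 (1, 0) ξ ≠ 0)
    (hequiv : ∀ c ∈ K.box 0 0, K.n c ≠ 0 → K.ord (K.n c) = 0 →
      ∀ z u, ψ c * T.φ 1 (K.qmul c z) (u / K.n c) = T.φ 1 z u)
    (hsupp : ∀ z u, T.φ 1 z u ≠ 0 → z ∈ K.box 0 0 ∧ K.n z ≠ 0 ∧ K.ord (K.n z) = 0) :
    ∃ g ξ, ξ ≠ 0 ∧ T.whit ψ g ξ ≠ 0 := by
  classical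
  obtain ⟨hξ, -⟩ := T.supp_u 1 (one_mem _) _ _ hne
  refine ⟨1, ξ, hξ, ?_⟩
  have hfl : T.fl 1 = T.φ 1 := by
    have e := T.fl_eq (one_mem _) (g := 1) (a := 1) (β := 0) (d := 1) (ha := one_ne_zero)
      (hd := one_ne_zero) (k := 1)
      (by rw [mul_one]; ext i j; fin_cases i <;> fin_cases j <;> simp)
    rw [e]
    funext z u
    simp [LocalForm.bact, T.eta_one, K.absv_unit K.ord_one]
  have hint : T.whitInt ψ 1 ξ = fun h => T.φ 1 (1, 0) ξ *
      if h ∈ K.box 0 0 ∧ K.n h ≠ 0 ∧ K.ord (K.n h) = 0 then 1 else 0 := by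
    funext h
    simp only [LocalVec.whitInt, hfl]
    split_ifs with hh
    · rw [mul_one, ← hequiv h hh.1 hh.2.1 hh.2.2 (1, 0) ξ, LocalForm.qmul_one]
    · rw [mul_zero]
      by_contra h0
      exact hh (hsupp _ _ (right_ne_zero_of_mul h0))
  have hsch : IsSch K.base fun h =>
      if h ∈ K.box 0 0 ∧ K.n h ≠ 0 ∧ K.ord (K.n h) = 0 then (1 : ℂ) else 0 := by
    refine ⟨_, _, K.isLat_box 1 1, K.isLat_box 0 0, ?_,
      fun z hz => by by_contra hb; exact hz (if_neg fun h => hb h.1)⟩
    intro z ρ hρ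
    have h := K.slice_per (ψ := fun _ => 1) ⟨fun _ _ => by simp, fun _ _ _ _ => rfl⟩ (i := 0)
      (j := 0) le_rfl le_rfl 0 (R := 1) zero_le_one zero_le_one le_rfl z ρ hρ
    simpa only [LocalForm.slice] using h
  have hI : integral K.base (T.whitInt ψ 1 ξ) = T.φ 1 (1, 0) ξ * K.unitVol := by
    rw [hint, integral_const_mul hsch]
    rfl
  rw [LocalVec.whit, hI]
  exact mul_ne_zero (div_ne_zero (zpow_ne_zero _ K.sqrtQ_ne) K.unitVol_ne)
    (mul_ne_zero hne K.unitVol_ne)

namespace PlaceDatum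

variable {s p : F} {v : FinPlace F} (P : PlaceDatum s p v)

/-- A residue model with nonzero value at one. -/
theorem exists_whit_ne_zero_of_model {η : v.adicCompletion F → ℂ} (M : ResModel P.form η) {ε : ℕ}
    (hvec : P.vec = M.localVec ε) (hN : ∀ r, M.f r ≠ 0 → M.N r ≠ 0) (hf : M.f (1, 0) ≠ 0) :
    ∃ g ξ, ξ ≠ 0 ∧ P.vec.whit P.psi g ξ ≠ 0 := by
  have hq := M.q_eq
  have hj : jThree (P.form.resMat 1) = 0 ∧ (P.form.resMat 1).det = 1 := by
    simp [LocalBase.resMat_one hq, jThree]
  refine LocalVec.exists_whit_ne_zero_of_units (ξ := P.form.unif ^ (P.form.cond - 1)) ?_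
    (P.equivariant 1 (one_mem _)) fun z u h => ?_
  · have h10 : ((1, 0) : v.adicCompletion F × v.adicCompletion F) ∈ P.form.box 0 0 :=
      LocalBase.mem_box.mpr ⟨P.form.one_mem_ball, zero_mem _⟩
    have e : P.form.unif ^ (P.form.cond - 1) * P.form.unif ^ (1 - P.form.cond) = 1 := by
      rw [← zpow_add₀ P.form.unif_ne_zero, sub_add_sub_cancel, sub_self, zpow_zero]
    rw [hvec]
    show M.phi ε 1 _ _ ≠ 0
    rw [ResModel.phi, if_pos ⟨zpow_ne_zero _ P.form.unif_ne_zero, P.form.ord_unif_zpow _⟩,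
      LocalForm.resFun, if_pos h10, hj.1, hj.2, mul_one, e, LocalBase.res_one hq,
      LocalBase.res_zero hq]
    simp [hf, sgnThree, LocalForm.zetaAt]
  · rw [hvec] at h
    simp only [ResModel.localVec, ResModel.phi] at h
    split_ifs at h with hu
    · have h' := right_ne_zero_of_mul h
      rw [LocalForm.resFun] at h'
      split_ifs at h' with hz
      · have hne := hN _ (left_ne_zero_of_mul h')
        rw [← M.n_eq z hz (left_ne_zero_of_mul h')] at hne
        exact ⟨hz, (LocalBase.res_ne_zero_iff hq (x := P.form.n z) (by simpa using P.form.n_mem hz)).mp hne⟩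
      · exact absurd rfl h'
    · exact absurd rfl h

end PlaceDatum

end Fermat.Agent.LT.DihedralTheta

end
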