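import Fermat.Agent.LT.DihedralTheta.LocalWhit
import Fermat.Agent.LT.DihedralTheta.TypeE
import Fermat.Agent.LT.CuspType.Fixed

/-!
# The type of the residue models

The Whittaker function of a residue model depends, on the right, only on the image in `S₃` of the
residue matrix, and lies in the isotypic part of the two dimensional representation at the
eigenline of sign `(-1) ^ ε`.
-/

set_option autoImplicit false

noncomputable section

open AddSubgroup Matrix
open Fermat.Agent.LT.CuspType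

namespace Fermat.Agent.LT.DihedralTheta

/-! ### Combinatorics on `GL₂(𝔽₃)` and `S₃` -/

lemma det_gl_ne_zero (m : GL (Fin 2) (ZMod 3)) : m.val.det ≠ 0 :=
  ((Matrix.isUnit_iff_isUnit_det _).mp m.isUnit).ne_zero

/-- The kernel of `GL₂(𝔽₃) → S₃` fixes the invariant and the determinant. -/
lemma jThree_mul_kernel {n : GL (Fin 2) (ZMod 3)} (hn : permThree n = 1)
    (x : Matrix (Fin 2) (Fin 2) (ZMod 3)) (hx : x.det ≠ 0) :
    jThree (x * n.val) = jThree x ∧ n.val.det = 1 := by
  have key : ∀ p q r s : ZMod 3, p * s - q * r ≠ 0 → (∀ a, MapsLine !![p, q; r, s] a a) →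
      p * s - q * r = 1 ∧ ∀ a b c d : ZMod 3, a * d - b * c ≠ 0 →
        ((a * p + b * r) * (c * p + d * r) + (a * q + b * s) * (c * q + d * s)) *
            ((c * p + d * r) ^ 2 + (c * q + d * s) ^ 2) =
          (a * c + b * d) * (c ^ 2 + d ^ 2) := by
    decide +kernel
  have hd := det_gl_ne_zero n
  rw [Matrix.det_fin_two] at hd hx
  have h1 : ∀ a, MapsLine n.val a a := fun a => by
    have h := mapsLine_lineImage n a
    rwa [show lineImage n a = a from Equiv.congr_fun hn a] at h
  obtain ⟨k1, k2⟩ := key (n.val 0 0) (n.val 0 1) (n.val 1 0) (n.val 1 1) hd (by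
    rw [← Matrix.eta_fin_two n.val]; exact h1)
  refine ⟨?_, by rw [Matrix.det_fin_two]; exact k1⟩
  simpa [jThree, Matrix.mul_apply, Fin.sum_univ_two] using k2 _ _ _ _ hx

/-- Every permutation comes from a triangular matrix. -/
lemma permThree_surjective : Function.Surjective permThree := by
  intro σ
  have key : ∀ σ : Equiv.Perm (Fin 3), ∃ a b : ZMod 3, a ≠ 0 ∧
      ∀ x, MapsLine !![a, b; 0, 1] x (σ x) := by decide +kernel
  obtain ⟨a, b, ha, h⟩ := key σ
  exact ⟨Matrix.GeneralLinearGroup.mkOfDetNeZero !![a, b; 0, 1] (by simpa using ha),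
    permThree_eq h⟩

/-! ### Linearity of the Whittaker function in the lattice functions -/

namespace LocalVec

variable {E : Type*} [Field E] {K : LocalForm E} {T : LocalVec K} {ψ : E × E → ℂ}

lemma ord_det_mul (g : GL (Fin 2) E) {k : GL (Fin 2) E} (hk : k ∈ K.intGL) :
    K.ord (g * k).val.det = K.ord g.val.det := by
  rw [Units.val_mul, Matrix.det_mul,
    K.ord_mul ((Matrix.isUnit_iff_isUnit_det _).mp g.isUnit).ne_zero
      ((Matrix.isUnit_iff_isUnit_det _).mp k.isUnit).ne_zero,
    K.ord_det_eq_zero hk, add_zero]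

/-- Translates with equal lattice functions give equal Whittaker functions. -/
lemma whit_congr_right {k k' : GL (Fin 2) E} (hk : k ∈ K.intGL) (hk' : k' ∈ K.intGL)
    (h : ∀ k0 ∈ K.intGL, T.φ (k0 * k) = T.φ (k0 * k')) (g : GL (Fin 2) E) (ξ : E) :
    T.whit ψ (g * k) ξ = T.whit ψ (g * k') ξ := by
  obtain ⟨a, β, d, ha, hd, k0, hk0, rfl⟩ := K.exists_iwasawa g
  have hfl : T.fl (bmat a β d ha hd * k0 * k) = T.fl (bmat a β d ha hd * k0 * k') := by
    rw [T.fl_eq (mul_mem hk0 hk) (mul_assoc _ _ _), T.fl_eq (mul_mem hk0 hk') (mul_assoc _ _ _),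
      h k0 hk0]
  have hint : T.whitInt ψ (bmat a β d ha hd * k0 * k) ξ =
      T.whitInt ψ (bmat a β d ha hd * k0 * k') ξ := by
    funext z; simp only [whitInt, hfl]
  rw [whit, whit, ord_det_mul _ hk, ord_det_mul _ hk', hint]

/-- Linear relations between right translates of the lattice functions pass to the Whittaker
functions. -/
lemma whit_sum_right (hT : IsGoodVec T ψ) {ι : Type*} [Fintype ι] (k : ι → GL (Fin 2) E)
    (hk : ∀ i, k i ∈ K.intGL) (c : ι → ℂ) (c0 : ℂ)
    (h : ∀ k0 ∈ K.intGL, ∀ z u, ∑ i, c i * T.φ (k0 * k i) z u = c0 * T.φ k0 z u)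
    (g : GL (Fin 2) E) (ξ : E) :
    ∑ i, c i * T.whit ψ (g * k i) ξ = c0 * T.whit ψ g ξ := by
  classical
  obtain ⟨a, β, d, ha, hd, k0, hk0, hg⟩ := K.exists_iwasawa g
  have hfl : ∀ z u, ∑ i, c i * T.fl (g * k i) z u = c0 * T.fl g z u := fun z u => by
    have e : ∀ i, T.fl (g * k i) = K.bact T.η a β d (T.φ (k0 * k i)) := fun i =>
      T.fl_eq (mul_mem hk0 (hk i)) (by rw [hg, mul_assoc])
    simp only [e, T.fl_eq hk0 hg, LocalForm.bact]
    rw [mul_left_comm c0, ← h k0 hk0, Finset.mul_sum]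
    exact Finset.sum_congr rfl fun i _ => by ring
  have hint : ∀ z, ∑ i, c i * T.whitInt ψ (g * k i) ξ z = c0 * T.whitInt ψ g ξ z := fun z => by
    simp only [whitInt]
    rw [mul_left_comm c0, ← hfl, Finset.mul_sum]
    exact Finset.sum_congr rfl fun i _ => by ring
  choose k0' hk0' using fun i => exists_sch hT (g * k i)
  obtain ⟨k1, hk1⟩ := exists_sch hT g
  have hper : ∀ i, ∃ R, IsPer (K.box R R) (T.whitInt ψ (g * k i) ξ) := fun i => (hk0' i ξ).2
  choose R hR using hper
  obtain ⟨R1, hR1⟩ := (hk1 ξ).2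
  obtain ⟨M, hM⟩ := (insert R1 (Finset.univ.image R)).bddAbove
  obtain ⟨m, hm⟩ := (insert k1 (Finset.univ.image k0')).bddBelow
  have hper' : ∀ i, IsPer (K.box M M) (T.whitInt ψ (g * k i) ξ) := fun i =>
    (hR i).mono (K.box_le (hM (by simp)) (hM (by simp)))
  have hsupp' : ∀ i, HasSupp (K.box m m) (T.whitInt ψ (g * k i) ξ) := fun i z hz =>
    K.box_le (hm (by simp)) (hm (by simp)) ((hk0' i ξ).1 z hz)
  have hper1 : IsPer (K.box M M) (T.whitInt ψ g ξ) := hR1.mono (K.box_le (hM (by simp)) (hM (by simp)))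
  have hsupp1 : HasSupp (K.box m m) (T.whitInt ψ g ξ) := fun z hz =>
    K.box_le (hm (by simp)) (hm (by simp)) ((hk1 ξ).1 z hz)
  simp only [whit, ord_det_mul g (hk _)]
  rw [integral_eq (K.isLat_box M M) (K.isLat_box m m) hper1 hsupp1]
  simp only [fun i => integral_eq (K.isLat_box M M) (K.isLat_box m m) (hper' i) (hsupp' i)]
  have hfin := fun i => finite_support (K.isLat_box M M) (K.isLat_box m m) (hsupp' i)
  have hsum : ∑ i, c i * sumOver (K.box M M) (T.whitInt ψ (g * k i) ξ) =
      c0 * sumOver (K.box M M) (T.whitInt ψ g ξ) := by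
    simp only [sumOver]
    rw [mul_finsum _ c0, Finset.sum_congr rfl fun i _ => mul_finsum _ (c i),
      ← finsum_sum_comm _ _ fun i _ => (hfin i).subset fun x hx => ?_]
    · exact finsum_congr fun x => hint _
    · exact right_ne_zero_of_mul hx
  calc ∑ i, c i * (_ / _ * (vol K.base (K.box M M) * sumOver (K.box M M) _))
      = K.sqrtQ ^ (K.ord ξ + T.e - K.ord g.val.det) / K.unitVol * (vol K.base (K.box M M) *
          ∑ i, c i * sumOver (K.box M M) (T.whitInt ψ (g * k i) ξ)) := by
        rw [Finset.mul_sum, Finset.mul_sum]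
        exact Finset.sum_congr rfl fun i _ => by ring
    _ = _ := by rw [hsum]; ring

end LocalVec

/-! ### The type -/

namespace ResModel

variable {E : Type*} [Field E] {K : LocalForm E} {η : E → ℂ} (M : ResModel K η)

/-- A lift of a residue matrix. -/
lemma exists_resMat_eq (M : ResModel K η) (m : GL (Fin 2) (ZMod 3)) : ∃ k ∈ K.intGL, K.resMat k = m.val := by
  have hq := M.q_eq
  have hmem : ∀ x : ZMod 3, (((x.val : ℕ)) : E) ∈ K.ball 0 := fun x => by
    simpa using K.intCast_mem_ball (x.val : ℤ)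
  have hres : ∀ x : ZMod 3, K.res (((x.val : ℕ)) : E) = x := fun x => by
    simpa using LocalBase.res_intCast (K := K.toLocalBase) hq (x.val : ℤ)
  set A : Matrix (Fin 2) (Fin 2) E := m.val.map fun x => (((x.val : ℕ)) : E) with hA
  have hAmem : ∀ i j, A i j ∈ K.ball 0 := fun i j => hmem _
  have hd : A.det ∈ K.ball 0 := by
    rw [Matrix.det_fin_two]
    exact sub_mem (K.mul_mem_ball' (hAmem _ _) (hAmem _ _) (by norm_num))
      (K.mul_mem_ball' (hAmem _ _) (hAmem _ _) (by norm_num))
  have hdet : K.res A.det ≠ 0 := by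
    rw [Matrix.det_fin_two, LocalBase.res_sub hq (K.mul_mem_ball' (hAmem _ _) (hAmem _ _) (by norm_num))
      (K.mul_mem_ball' (hAmem _ _) (hAmem _ _) (by norm_num)),
      LocalBase.res_mul hq (hAmem _ _) (hAmem _ _), LocalBase.res_mul hq (hAmem _ _) (hAmem _ _)]
    simp only [hA, Matrix.map_apply, hres, ← Matrix.det_fin_two]
    exact det_gl_ne_zero m
  obtain ⟨h0, hord⟩ := (LocalBase.res_ne_zero_iff hq hd).mp hdet
  refine ⟨Matrix.GeneralLinearGroup.mkOfDetNeZero A h0, K.mem_intGL hAmem hord, ?_⟩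
  ext i j
  exact hres _

/-- The value of the lattice functions at a residue matrix. -/
def resVal (M : ResModel K η) (ε : ℕ) (u : E) (z : E × E)
    (m : Matrix (Fin 2) (Fin 2) (ZMod 3)) : ℂ :=
  sgnThree (K.res (u * K.unif ^ (1 - K.cond)) * m.det) ^ ε * K.resFun M.N M.f (jThree m) u z

lemma resVal_kernel (ε : ℕ) (u : E) (z : E × E) {m : Matrix (Fin 2) (Fin 2) (ZMod 3)}
    (hm : m.det ≠ 0) {n : GL (Fin 2) (ZMod 3)} (hn : permThree n = 1) :
    M.resVal ε u z (m * n.val) = M.resVal ε u z m := by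
  obtain ⟨hj, hd⟩ := jThree_mul_kernel hn m hm
  rw [resVal, resVal, hj, Matrix.det_mul, hd, mul_one]

lemma resVal_congr (ε : ℕ) (u : E) (z : E × E) {m : Matrix (Fin 2) (Fin 2) (ZMod 3)}
    (hm : m.det ≠ 0) {n n' : GL (Fin 2) (ZMod 3)} (h : permThree n = permThree n') :
    M.resVal ε u z (m * n.val) = M.resVal ε u z (m * n'.val) := by
  have h1 : permThree (n'⁻¹ * n) = 1 := by rw [map_mul, map_inv, h, inv_mul_cancel]
  have hmn : (m * n'.val).det ≠ 0 := by
    rw [Matrix.det_mul]; exact mul_ne_zero hm (det_gl_ne_zero n')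
  rw [← M.resVal_kernel ε u z hmn h1, mul_assoc, ← Units.val_mul, mul_inv_cancel_left]

variable (hN : ∀ r, M.f r ≠ 0 → M.N r ≠ 0)

include hN

lemma resFun_sum {u : E} (hu : u ≠ 0) (h : K.ord u = K.cond - 1) (z : E × E) :
    K.resFun M.N M.f 0 u z + K.resFun M.N M.f 1 u z + K.resFun M.N M.f 2 u z = 0 := by
  simp only [LocalForm.resFun]
  split_ifs
  swap
  · simp
  by_cases hf : M.f (K.res z.1, K.res z.2) = 0
  · simp [hf]
  have hne := hN _ hf
  have hs : 1 + K.zetaAt u 1 + K.zetaAt u 2 = 0 := by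
    have h2 := LocalForm.zeta_sum (K := K.shift u hu) M.q_eq (LocalForm.shift_cond_one hu h)
    rw [show (2 : ZMod 3) = 1 + 1 from rfl, LocalForm.zetaAt_add M.q_eq hu h]
    exact h2
  have h0 : K.zetaAt u 0 = 1 := by simp [LocalForm.zetaAt]
  generalize M.N (K.res z.1, K.res z.2) = r at hne
  have hr : r = 1 ∨ r = 2 := by revert r; decide
  rcases hr with rfl | rfl
  · simp only [mul_one, h0]
    linear_combination M.f (K.res z.1, K.res z.2) * hs
  · simp only [zero_mul, one_mul, h0, show (2 : ZMod 3) * 2 = 1 from rfl]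
    linear_combination M.f (K.res z.1, K.res z.2) * hs

/-- The weighted sum over the translates of the lattice functions. -/
lemma sum_coef_resVal (ε : Fin 2) {u : E} (hu : u ≠ 0) (h : K.ord u = K.cond - 1) (z : E × E)
    {m : Matrix (Fin 2) (Fin 2) (ZMod 3)} (hm : m.det ≠ 0)
    (n : Equiv.Perm (Fin 3) → GL (Fin 2) (ZMod 3)) (hn : ∀ σ, permThree (n σ) = σ) :
    ∑ σ, coef ε σ * M.resVal ε u z (m * (n σ).val) = 3 * M.resVal ε u z m := by
  set f : Equiv.Perm (Fin 3) → ℂ := fun σ => M.resVal ε u z (m * (n σ).val) with hfdef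
  have hf : ∀ x : GL (Fin 2) (ZMod 3), f (permThree x) = M.resVal ε u z (m * x.val) := fun x =>
    M.resVal_congr _ u z hm (by rw [hn])
  have h1 : f 1 = M.resVal ε u z m := by
    rw [← map_one permThree, hf, Units.val_one, mul_one]
  let d : GL (Fin 2) (ZMod 3) :=
    Matrix.GeneralLinearGroup.mkOfDetNeZero !![2, 0; 0, 1] (by rw [Matrix.det_fin_two_of]; decide)
  let t : ZMod 3 → GL (Fin 2) (ZMod 3) := fun i =>
    Matrix.GeneralLinearGroup.mkOfDetNeZero !![1, i; 0, 1] (by rw [Matrix.det_fin_two_of]; simp)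
  have hflip : ∀ σ, f (σ * flipPerm) = (-1) ^ (ε : ℕ) * f σ := by
    intro σ
    have e : σ * flipPerm = permThree (n σ * d) := by
      rw [map_mul, hn, show permThree d = flipPerm from permThree_diag rfl]
    rw [e, hf]
    have key : ∀ a b c e : ZMod 3,
        (a * 2 * (c * 2) + b * e) * ((c * 2) ^ 2 + e ^ 2) = (a * c + b * e) * (c ^ 2 + e ^ 2) := by
      decide
    have hj : ∀ x : Matrix (Fin 2) (Fin 2) (ZMod 3), jThree (x * d.val) = jThree x := fun x => by
      simpa [jThree, d, Matrix.mul_apply, Fin.sum_univ_two] using key _ _ _ _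
    have hs : ∀ x : ZMod 3, sgnThree (x * 2) = -1 * sgnThree x := by
      intro x
      have hx : x = 0 ∨ x = 1 ∨ x = 2 := by revert x; decide
      rcases hx with rfl | rfl | rfl <;> simp +decide [sgnThree]
    show M.resVal _ u z (m * (n σ * d).val) = _ * M.resVal _ u z (m * (n σ).val)
    rw [Units.val_mul, ← mul_assoc, resVal, resVal, hj, Matrix.det_mul, ← mul_assoc,
      show d.val.det = 2 by show Matrix.det !![(2 : ZMod 3), 0; 0, 1] = 2; simp, hs, mul_pow]
    ring
  have hr : ∀ a, permThree (t 1) a ≠ a := permThree_unipotent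
    (by show (!![(1 : ZMod 3), 1; 0, 1] - 1) * _ = 0; decide)
    (by show !![(1 : ZMod 3), 1; 0, 1] ≠ 1; decide)
  have hsum : f 1 + f (permThree (t 1)) + f (permThree (t 1) * permThree (t 1)) = 0 := by
    have e0 : (1 : Equiv.Perm (Fin 3)) = permThree (t 0) := by
      rw [show t 0 = 1 by apply Units.ext; decide, map_one]
    have e2 : permThree (t 1) * permThree (t 1) = permThree (t 2) := by
      rw [← map_mul, show t 1 * t 1 = t 2 by apply Units.ext; decide]
    rw [e2, e0, hf, hf, hf]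
    have key : ∀ a b c e : ZMod 3, a * e - b * c ≠ 0 → ∀ i j : ZMod 3,
        ((a * c + (a * i + b) * (c * i + e)) * (c ^ 2 + (c * i + e) ^ 2) =
          (a * c + (a * j + b) * (c * j + e)) * (c ^ 2 + (c * j + e) ^ 2)) → i = j := by
      decide
    have hinj : Function.Injective fun i => jThree (m * (t i).val) := fun i j hij =>
      key (m 0 0) (m 0 1) (m 1 0) (m 1 1) (by rwa [← Matrix.det_fin_two]) i j (by
        simpa [jThree, t, Matrix.mul_apply, Fin.sum_univ_two] using hij)
    have hdet : ∀ i, (m * (t i).val).det = m.det := fun i => by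
      rw [Matrix.det_mul, show (t i).val.det = 1 by
        show Matrix.det !![(1 : ZMod 3), i; 0, 1] = 1; simp, mul_one]
    have hsum3 : ∀ g : ZMod 3 → ℂ, ∑ i, g i = g 0 + g 1 + g 2 := fun g => Fin.sum_univ_three g
    have hre := Fintype.sum_bijective _ (Finite.injective_iff_bijective.mp hinj)
      (fun i => K.resFun M.N M.f (jThree (m * (t i).val)) u z) (fun j => K.resFun M.N M.f j u z)
      fun i => rfl
    rw [hsum3, hsum3, M.resFun_sum hN hu h z] at hre
    simp only [resVal, hdet]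
    linear_combination sgnThree (K.res (u * K.unif ^ (1 - K.cond)) * m.det) ^ (ε : ℕ) * hre
  rw [← h1]
  exact sum_coef_mul_of_laws ε hr f hflip hsum

/-- **The type of the Whittaker function of a residue model.** -/
theorem exists_type_fun (ε : Fin 2) {ψ : E × E → ℂ} (hψ : IsGoodVec (M.localVec ε) ψ)
    (g : GL (Fin 2) E) (ξ : E) :
    ∃ H : Equiv.Perm (Fin 3) → ℂ, ∑ σ, coef ε σ * H σ = 3 * H 1 ∧
      ∀ k ∈ K.intGL, ∀ m : GL (Fin 2) (ZMod 3), K.resMat k = m.val →
        (M.localVec ε).whit ψ (g * k) ξ = H (permThree m) := by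
  have hq := M.q_eq
  choose n hn using permThree_surjective
  choose kl hkl hkl' using fun σ => M.exists_resMat_eq (n σ)
  have hcong : ∀ k ∈ K.intGL, ∀ m : GL (Fin 2) (ZMod 3), K.resMat k = m.val →
      (M.localVec ε).whit ψ (g * k) ξ = (M.localVec ε).whit ψ (g * kl (permThree m)) ξ := by
    intro k hk m hm
    refine LocalVec.whit_congr_right hk (hkl _) (fun k0 hk0 => ?_) g ξ
    funext z u
    show M.phi ε (k0 * k) z u = M.phi ε (k0 * kl _) z u
    simp only [phi, LocalBase.resMat_mul hq hk0 hk, LocalBase.resMat_mul hq hk0 (hkl _), hm, hkl']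
    split_ifs
    · exact M.resVal_congr _ u z (LocalBase.resMat_det hq hk0).2 (hn _).symm
    · rfl
  refine ⟨fun σ => (M.localVec ε).whit ψ (g * kl σ) ξ, ?_, hcong⟩
  have h1 := hcong 1 (one_mem _) 1 (by rw [LocalBase.resMat_one hq, Units.val_one])
  rw [mul_one, map_one] at h1
  simp only []
  rw [← h1]
  refine LocalVec.whit_sum_right hψ kl hkl _ _ (fun k0 hk0 z u => ?_) g ξ
  show ∑ σ, coef ε σ * M.phi ε (k0 * kl σ) z u = 3 * M.phi ε k0 z u
  simp only [phi, LocalBase.resMat_mul hq hk0 (hkl _), hkl']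
  by_cases hu : u ≠ 0 ∧ K.ord u = K.cond - 1
  · simp only [if_pos hu]
    exact M.sum_coef_resVal hN ε hu.1 hu.2 z (LocalBase.resMat_det hq hk0).2 n hn
  · simp only [if_neg hu, mul_zero, Finset.sum_const_zero]

end ResModel

end Fermat.Agent.LT.DihedralTheta

end
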